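import Mathlib

set_option autoImplicit false

open Polynomial NumberField

namespace Fermat.Agent.Lib.Kummer

section ModP

variable (p : ℕ) [hp : Fact p.Prime]

/-- Over `ZMod p`, the `p`-th cyclotomic polynomial is `(X - 1) ^ (p - 1)`. -/
lemma cyclotomic_zmod_self : cyclotomic p (ZMod p) = (X - 1) ^ (p - 1) := by
  have h1 : cyclotomic p (ZMod p) * (X - 1) = (X - 1) ^ (p - 1) * (X - 1) := by
    rw [cyclotomic_prime_mul_X_sub_one, ← pow_succ, Nat.sub_add_cancel hp.out.one_le,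
      sub_pow_char, one_pow]
  exact mul_right_cancel₀ (X_sub_C_ne_zero (1 : ZMod p)) (by simpa using h1)

lemma map_cyclotomic_comp_X_add_one :
    ((cyclotomic p ℤ).comp (X + 1)).map (Int.castRingHom (ZMod p)) = X ^ (p - 1) := by
  rw [map_comp, map_cyclotomic_int, Polynomial.map_add, map_X, Polynomial.map_one,
    cyclotomic_zmod_self, pow_comp, sub_comp, X_comp, one_comp, add_sub_cancel_right]

/-- Frobenius on `ℤ[X]` modulo `p`. -/
lemma exists_pow_eq_expand_add (g : ℤ[X]) :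
    ∃ h : ℤ[X], g ^ p = expand ℤ p g + C (p : ℤ) * h := by
  have h0 : (g ^ p - expand ℤ p g).map (Int.castRingHom (ZMod p)) = 0 := by
    rw [Polynomial.map_sub, Polynomial.map_pow, map_expand, ZMod.expand_card, sub_self]
  have h1 : C (p : ℤ) ∣ g ^ p - expand ℤ p g := by
    rw [C_dvd_iff_dvd_coeff]
    intro i
    have := congrArg (fun q => q.coeff i) h0
    simp only [coeff_map, coeff_zero, eq_intCast] at this
    exact (ZMod.intCast_zmod_eq_zero_iff_dvd _ p).mp this
  obtain ⟨h, hh⟩ := h1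
  exact ⟨h, by rw [← hh]; ring⟩

end ModP

section Cyclo

variable {p : ℕ} [hp : Fact p.Prime] {K : Type*} [Field K] [NumberField K]
  [IsCyclotomicExtension {p} ℚ K] {ζ : K} (hζ : IsPrimitiveRoot ζ p)

/-- The minimal polynomial over `ℤ` of `ζ - 1` (as an element of `𝓞 K`). -/
lemma minpoly_toInteger_sub_one :
    minpoly ℤ (hζ.toInteger - 1 : 𝓞 K) = (cyclotomic p ℤ).comp (X + 1) := by
  have hint : IsIntegral ℤ (ζ - 1) := (hζ.isIntegral (NeZero.pos _)).sub isIntegral_one
  have h₁ := minpoly.isIntegrallyClosed_eq_field_fractions' ℚ hint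
  have h₂ := hζ.minpoly_sub_one_eq_cyclotomic_comp (cyclotomic.irreducible_rat (NeZero.pos _))
  rw [h₁, ← map_cyclotomic_int, ← algebraMap_int_eq,
    show (X : ℚ[X]) + 1 = map (algebraMap ℤ ℚ) (X + 1) by simp, ← map_comp] at h₂
  have h₃ := map_injective (algebraMap ℤ ℚ) (algebraMap ℤ ℚ).injective_int h₂
  rw [← h₃]
  have : (algebraMap (𝓞 K) K) (hζ.toInteger - 1) = ζ - 1 := by
    rw [map_sub, map_one]; rfl
  rw [← this]
  exact (minpoly.algebraMap_eq RingOfIntegers.coe_injective _).symm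

/-- Every element of `𝓞 K` is a polynomial in `ζ - 1`. -/
lemma exists_aeval_sub_one (y : 𝓞 K) : ∃ g : ℤ[X], y = aeval (hζ.toInteger - 1) g := by
  obtain ⟨g, hg⟩ := hζ.subOneIntegralPowerBasis.exists_eq_aeval' y
  refine ⟨g, ?_⟩
  have hgen : hζ.subOneIntegralPowerBasis.gen = hζ.toInteger - 1 := by
    rw [IsPrimitiveRoot.subOneIntegralPowerBasis_gen]
    apply RingOfIntegers.ext
    show ζ - 1 = algebraMap (𝓞 K) K (hζ.toInteger - 1)
    rw [map_sub, map_one]; rfl
  rw [hg, hgen]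

/-- **Kummer's logarithmic derivative, polynomial form.** If `f(ζ - 1)` is congruent to a
rational integer modulo `p`, then `X ^ (p - 2)` divides the derivative of `f` modulo `p`. -/
theorem X_pow_dvd_derivative_of_dvd_sub (f : ℤ[X]) (a : ℤ)
    (h : (p : 𝓞 K) ∣ aeval (hζ.toInteger - 1) f - a) :
    X ^ (p - 2) ∣ derivative (f.map (Int.castRingHom (ZMod p))) := by
  obtain ⟨y, hy⟩ := h
  obtain ⟨g, rfl⟩ := exists_aeval_sub_one hζ y
  have h0 : aeval (hζ.toInteger - 1) (f - C a - C (p : ℤ) * g) = 0 := by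
    rw [map_sub, map_sub, map_mul, aeval_C, aeval_C, eq_intCast, eq_intCast, hy]
    simp
  have hint : IsIntegral ℤ (hζ.toInteger - 1 : 𝓞 K) := RingOfIntegers.isIntegral _
  obtain ⟨q, hq⟩ := minpoly.isIntegrallyClosed_dvd hint h0
  rw [minpoly_toInteger_sub_one] at hq
  have hf : f = C a + C (p : ℤ) * g + (cyclotomic p ℤ).comp (X + 1) * q := by
    rw [← hq]; ring
  have hmap : f.map (Int.castRingHom (ZMod p)) =
      C ((a : ZMod p)) + X ^ (p - 1) * q.map (Int.castRingHom (ZMod p)) := by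
    rw [hf, Polynomial.map_add, Polynomial.map_add, Polynomial.map_mul, Polynomial.map_mul,
      map_cyclotomic_comp_X_add_one, map_C, map_C]
    simp
  rw [hmap, derivative_add, derivative_C, zero_add, derivative_mul, derivative_X_pow]
  have hp2 : p - 1 = (p - 2) + 1 := by have := hp.out.two_le; omega
  refine dvd_add ?_ ?_
  · rw [show p - 1 - 1 = p - 2 by omega]
    exact Dvd.dvd.mul_right (Dvd.intro_left _ rfl) _
  · rw [hp2, pow_succ]
    exact Dvd.dvd.mul_right (Dvd.intro _ rfl) _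

include hζ in
/-- `p`-th powers in `𝓞 K` are congruent to rational integers modulo `p`. -/
theorem exists_int_dvd_pow_sub (y : 𝓞 K) : ∃ a : ℤ, (p : 𝓞 K) ∣ y ^ p - a := by
  obtain ⟨g, rfl⟩ := hζ.integralPowerBasis.exists_eq_aeval' y
  rw [IsPrimitiveRoot.integralPowerBasis_gen]
  obtain ⟨h, hh⟩ := exists_pow_eq_expand_add p g
  refine ⟨g.eval 1, aeval hζ.toInteger h, ?_⟩
  have h1 : hζ.toInteger ^ p = 1 := hζ.toInteger_isPrimitiveRoot.pow_eq_one
  rw [← map_pow, hh, map_add, map_mul, aeval_C, expand_aeval, h1, eq_intCast]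
  have h2 : aeval (1 : 𝓞 K) g = ((g.eval 1 : ℤ) : 𝓞 K) := by
    have := aeval_algebraMap_apply (𝓞 K) (1 : ℤ) g
    rw [map_one] at this
    rw [this, eq_intCast]
    simp
  rw [h2]
  push_cast
  ring

end Cyclo

end Fermat.Agent.Lib.Kummer
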