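import Mathlib

set_option autoImplicit false

open Polynomial

namespace Fermat.Agent.Lib.Kummer

section LogDeriv

variable {R : Type*} [CommRing R]

lemma mul_derivative_pow (g : R[X]) (n : ℕ) :
    g * derivative (g ^ n) = (n : R[X]) * g ^ n * derivative g := by
  cases n with
  | zero => simp
  | succ m =>
    rw [derivative_pow, Nat.add_sub_cancel, pow_succ]
    simp only [map_natCast]
    ring

/-- Logarithmic-derivative identity for a product of powers. -/
lemma prod_mul_derivative_prod_pow {ι : Type*} [DecidableEq ι] (s : Finset ι) (g : ι → R[X])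
    (b : ι → ℕ) :
    (∏ i ∈ s, g i) * derivative (∏ i ∈ s, g i ^ b i) =
      (∏ i ∈ s, g i ^ b i) * ∑ i ∈ s, (b i : R[X]) * (derivative (g i) * ∏ j ∈ s.erase i, g j) := by
  induction s using Finset.induction_on with
  | empty => simp
  | insert a s ha ih =>
    rw [Finset.prod_insert ha, Finset.prod_insert ha, derivative_mul, Finset.sum_insert ha,
      Finset.erase_insert ha]
    have h1 : ∀ i ∈ s, ∏ j ∈ (insert a s).erase i, g j = g a * ∏ j ∈ s.erase i, g j := by
      intro i hi
      have hai : a ≠ i := fun h => ha (h ▸ hi)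
      rw [Finset.erase_insert_of_ne hai, Finset.prod_insert]
      exact fun h => ha (Finset.mem_of_mem_erase h)
    rw [Finset.sum_congr rfl fun i hi => by rw [h1 i hi]]
    have h2 : ∑ i ∈ s, (b i : R[X]) * (derivative (g i) * (g a * ∏ j ∈ s.erase i, g j)) =
        g a * ∑ i ∈ s, (b i : R[X]) * (derivative (g i) * ∏ j ∈ s.erase i, g j) := by
      rw [Finset.mul_sum]
      refine Finset.sum_congr rfl fun i _ => by ring
    rw [h2]
    have h3 := mul_derivative_pow (g a) (b a)
    set P := ∏ i ∈ s, g i with hP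
    set Q := ∏ i ∈ s, g i ^ b i with hQ
    set S := ∑ i ∈ s, (b i : R[X]) * (derivative (g i) * ∏ j ∈ s.erase i, g j) with hS
    calc g a * P * (derivative (g a ^ b a) * Q + g a ^ b a * derivative Q)
        = (g a * derivative (g a ^ b a)) * P * Q + g a * g a ^ b a * (P * derivative Q) := by ring
      _ = g a ^ b a * Q * ((b a : R[X]) * (derivative (g a) * P) + g a * S) := by
          rw [h3, ih]; ring

/-- If `X ^ m` divides the derivative of `∏ g i ^ b i` and no `g i` vanishes at `0`, then
`X ^ m` divides the "logarithmic derivative numerator" `∑ b i * g i' * ∏_{j ≠ i} g j`. -/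
lemma X_pow_dvd_logDeriv_numerator {F : Type*} [Field F] {ι : Type*} [DecidableEq ι]
    (s : Finset ι) (g : ι → F[X]) (b : ι → ℕ) (hg : ∀ i ∈ s, (g i).coeff 0 ≠ 0) (m : ℕ)
    (h : X ^ m ∣ derivative (∏ i ∈ s, g i ^ b i)) :
    X ^ m ∣ ∑ i ∈ s, (b i : F[X]) * (derivative (g i) * ∏ j ∈ s.erase i, g j) := by
  have h1 : X ^ m ∣ (∏ i ∈ s, g i ^ b i) *
      ∑ i ∈ s, (b i : F[X]) * (derivative (g i) * ∏ j ∈ s.erase i, g j) := by
    rw [← prod_mul_derivative_prod_pow]
    exact Dvd.dvd.mul_left h _
  refine Prime.pow_dvd_of_dvd_mul_left prime_X m ?_ h1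
  rw [X_dvd_iff, coeff_zero_eq_eval_zero, eval_prod]
  refine Finset.prod_ne_zero_iff.mpr fun i hi => ?_
  rw [eval_pow, ← coeff_zero_eq_eval_zero]
  exact pow_ne_zero _ (hg i hi)

end LogDeriv

end Fermat.Agent.Lib.Kummer
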