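import Mathlib

set_option autoImplicit false

open NumberField NumberField.Units

namespace Fermat.Agent.Lib.Kummer

section Generic

variable {G : Type*} [CommGroup G]

/-- The subgroup of `p`-th multiples in `Additive G`. -/
def pMultiples (p : ℕ) (G : Type*) [CommGroup G] : AddSubgroup (Additive G) :=
  (nsmulAddMonoidHom (α := Additive G) p).range

lemma mem_pMultiples {p : ℕ} {x : Additive G} :
    x ∈ pMultiples p G ↔ ∃ v : G, x = Additive.ofMul (v ^ p) := by
  constructor
  · rintro ⟨y, rfl⟩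
    exact ⟨y.toMul, rfl⟩
  · rintro ⟨v, rfl⟩
    exact ⟨Additive.ofMul v, rfl⟩

/-- The quotient `G / G^p`, written additively. -/
abbrev ModPow (p : ℕ) (G : Type*) [CommGroup G] : Type _ := Additive G ⧸ pMultiples p G

lemma nsmul_modPow_eq_zero (p : ℕ) (x : ModPow p G) : p • x = 0 := by
  induction x using QuotientAddGroup.induction_on with
  | H y =>
    rw [← QuotientAddGroup.mk_nsmul, QuotientAddGroup.eq_zero_iff]
    exact ⟨y, rfl⟩

instance instModuleModPow (p : ℕ) [NeZero p] : Module (ZMod p) (ModPow p G) :=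
  AddCommGroup.zmodModule (nsmul_modPow_eq_zero p)

/-- The class of `g : G` in `G / G^p`. -/
def toModPow (p : ℕ) (g : G) : ModPow p G := QuotientAddGroup.mk (Additive.ofMul g)

lemma toModPow_mul (p : ℕ) (g h : G) : toModPow p (g * h) = toModPow p g + toModPow p h := rfl

lemma toModPow_one (p : ℕ) : toModPow p (1 : G) = 0 := rfl

lemma toModPow_zpow (p : ℕ) (g : G) (k : ℤ) : toModPow p (g ^ k) = k • toModPow p g := rfl

lemma toModPow_pow (p : ℕ) (g : G) (k : ℕ) : toModPow p (g ^ k) = k • toModPow p g := rfl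

lemma toModPow_prod (p : ℕ) {ι : Type*} (s : Finset ι) (f : ι → G) :
    toModPow p (∏ i ∈ s, f i) = ∑ i ∈ s, toModPow p (f i) := by
  classical
  induction s using Finset.induction_on with
  | empty => simp [toModPow_one]
  | insert a s ha ih => rw [Finset.prod_insert ha, Finset.sum_insert ha, toModPow_mul, ih]

lemma toModPow_eq_zero_iff {p : ℕ} {g : G} : toModPow p g = 0 ↔ ∃ v : G, g = v ^ p := by
  rw [toModPow, QuotientAddGroup.eq_zero_iff, mem_pMultiples]
  constructor
  · rintro ⟨v, hv⟩; exact ⟨v, Additive.ofMul.injective hv⟩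
  · rintro ⟨v, rfl⟩; exact ⟨v, rfl⟩

lemma toModPow_eq_iff {p : ℕ} {g h : G} : toModPow p g = toModPow p h ↔ ∃ v : G, g = h * v ^ p := by
  have : toModPow p g = toModPow p h ↔ toModPow p (g * h⁻¹) = 0 := by
    rw [toModPow_mul]
    have : toModPow p h⁻¹ = - toModPow p h := rfl
    rw [this, ← sub_eq_add_neg, sub_eq_zero]
  rw [this, toModPow_eq_zero_iff]
  constructor
  · rintro ⟨v, hv⟩; exact ⟨v, by rw [← hv, mul_comm g, mul_inv_cancel_left]⟩
  · rintro ⟨v, rfl⟩; exact ⟨v, by rw [mul_comm h, mul_inv_cancel_right]⟩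

lemma toModPow_surjective (p : ℕ) : Function.Surjective (toModPow p : G → ModPow p G) := by
  intro x
  induction x using QuotientAddGroup.induction_on with
  | H y => exact ⟨y.toMul, rfl⟩

lemma intCast_smul_toModPow (p : ℕ) [NeZero p] (k : ℤ) (g : G) :
    ((k : ZMod p)) • toModPow p g = toModPow p (g ^ k) := by
  rw [toModPow_zpow, Int.cast_smul_eq_zsmul]

end Generic

section NumberField

variable (K : Type*) [Field K] [NumberField K] (p : ℕ) [Fact p.Prime]

/-- `E / E^p` is spanned by the class of a generator of the torsion and the classes of a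
fundamental system of units. -/
lemma span_modPow_units_eq_top :
    ∃ g : Option (Fin (rank K)) → ModPow p (𝓞 K)ˣ,
      Submodule.span (ZMod p) (Set.range g) = ⊤ := by
  obtain ⟨t, ht⟩ := IsCyclic.exists_generator (α := torsion K)
  refine ⟨fun o => o.elim (toModPow p (t : (𝓞 K)ˣ)) (fun i => toModPow p (fundSystem K i)), ?_⟩
  rw [eq_top_iff]
  rintro x -
  obtain ⟨x, rfl⟩ := toModPow_surjective p x
  obtain ⟨⟨ζ, e⟩, hx, -⟩ := exist_unique_eq_mul_prod K x
  obtain ⟨k, hk⟩ : ∃ k : ℤ, t ^ k = ζ := by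
    have := ht ζ
    rwa [Subgroup.mem_zpowers_iff] at this
  have hx' : x = (t : (𝓞 K)ˣ) ^ k * ∏ i, (fundSystem K i) ^ (e i) := by
    rw [hx]
    congr 1
    rw [← hk]
    simp
  rw [hx', toModPow_mul, toModPow_prod]
  refine Submodule.add_mem _ ?_ (Submodule.sum_mem _ fun i _ => ?_)
  · rw [← intCast_smul_toModPow]
    exact Submodule.smul_mem _ _ (Submodule.subset_span ⟨none, rfl⟩)
  · rw [← intCast_smul_toModPow]
    exact Submodule.smul_mem _ _ (Submodule.subset_span ⟨some i, rfl⟩)

instance : Module.Finite (ZMod p) (ModPow p (𝓞 K)ˣ) := by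
  obtain ⟨g, hg⟩ := span_modPow_units_eq_top K p
  classical
  exact ⟨⟨(Finset.univ.image g), by simpa using hg⟩⟩

lemma finrank_modPow_units_le :
    Module.finrank (ZMod p) (ModPow p (𝓞 K)ˣ) ≤ rank K + 1 := by
  obtain ⟨g, hg⟩ := span_modPow_units_eq_top K p
  have h1 : (Set.range g).finrank (ZMod p) ≤ Fintype.card (Option (Fin (rank K))) :=
    finrank_range_le_card g
  rw [Set.finrank, hg, finrank_top] at h1
  simpa using h1

variable {K p}

/-- **Basis criterion.** If `n ≥ rank + 1` units are independent modulo `p`-th powers, every unit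
is a product of powers of them times a `p`-th power. -/
theorem exists_eq_prod_zpow_mul_pow {n : ℕ} (hn : rank K + 1 ≤ n) (u : Fin n → (𝓞 K)ˣ)
    (hind : ∀ b : Fin n → ℤ, (∃ v : (𝓞 K)ˣ, ∏ i, u i ^ b i = v ^ p) → ∀ i, (p : ℤ) ∣ b i)
    (x : (𝓞 K)ˣ) :
    ∃ (b : Fin n → ℤ) (v : (𝓞 K)ˣ), x = (∏ i, u i ^ b i) * v ^ p := by
  have : NeZero p := ⟨(Fact.out : p.Prime).ne_zero⟩
  have hli : LinearIndependent (ZMod p) (fun i => toModPow p (u i)) := by
    rw [Fintype.linearIndependent_iff]
    intro g hg i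
    have h1 : toModPow p (∏ i, u i ^ ((g i).cast : ℤ)) = 0 := by
      rw [toModPow_prod, ← hg]
      refine Finset.sum_congr rfl fun j _ => ?_
      rw [← intCast_smul_toModPow, ZMod.intCast_cast, ZMod.cast_id', id]
    have h2 := hind _ (toModPow_eq_zero_iff.mp h1) i
    have h3 : ((((g i).cast : ℤ)) : ZMod p) = 0 := (ZMod.intCast_zmod_eq_zero_iff_dvd _ p).mpr h2
    rwa [ZMod.intCast_cast, ZMod.cast_id', id] at h3
  have hcard : Fintype.card (Fin n) = Module.finrank (ZMod p) (ModPow p (𝓞 K)ˣ) := by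
    refine le_antisymm hli.fintype_card_le_finrank ?_
    rw [Fintype.card_fin]
    exact (finrank_modPow_units_le K p).trans hn
  have hn0 : Nonempty (Fin n) := ⟨⟨0, by omega⟩⟩
  have hspan := hli.span_eq_top_of_card_eq_finrank hcard
  have hx : toModPow p x ∈ Submodule.span (ZMod p) (Set.range fun i => toModPow p (u i)) := by
    rw [hspan]; trivial
  obtain ⟨c, hc⟩ := (Submodule.mem_span_range_iff_exists_fun _).mp hx
  have h4 : toModPow p x = toModPow p (∏ i, u i ^ ((c i).cast : ℤ)) := by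
    rw [toModPow_prod, ← hc]
    refine Finset.sum_congr rfl fun j _ => ?_
    rw [← intCast_smul_toModPow, ZMod.intCast_cast, ZMod.cast_id', id]
  obtain ⟨v, hv⟩ := toModPow_eq_iff.mp h4
  exact ⟨fun i => ((c i).cast : ℤ), v, hv⟩

end NumberField

section Cyclotomic

variable (K : Type*) [Field K] [NumberField K] (p : ℕ) [Fact p.Prime]
  [IsCyclotomicExtension {p} ℚ K]

/-- For the `p`-th cyclotomic field (`p` an odd prime) the unit rank plus one is `(p - 1) / 2`. -/
lemma rank_add_one_eq (hp : 2 < p) : rank K + 1 = (p - 1) / 2 := by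
  have : NeZero p := ⟨(Fact.out : p.Prime).ne_zero⟩
  have h1 := IsCyclotomicExtension.Rat.nrRealPlaces_eq_zero K (n := p) hp
  have h2 := IsCyclotomicExtension.Rat.nrComplexPlaces_eq_totient_div_two p K
  have h3 := InfinitePlace.card_eq_nrRealPlaces_add_nrComplexPlaces K
  rw [Nat.totient_prime Fact.out] at h2
  have h4 : 0 < Fintype.card (InfinitePlace K) := Fintype.card_pos
  rw [rank, h3, h1, h2, zero_add]
  rw [h3, h1, h2, zero_add] at h4
  omega

end Cyclotomic

end Fermat.Agent.Lib.Kummer
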