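import Mathlib
import Fermat.Agent.Lib.Kummer.UnitsModP
import Fermat.Agent.Lib.Kummer.PolyLog
import Fermat.Agent.Lib.Kummer.CycloPoly

set_option autoImplicit false

open Polynomial NumberField

namespace Fermat.Agent.Lib.Kummer

/-- Reduce integer exponents modulo `p`. -/
lemma exists_reduced_exponents {G : Type*} [CommGroup G] {p : ℕ} (hp : 0 < p) {n : ℕ}
    (u : Fin n → G) (b : Fin n → ℤ) :
    ∃ (r : Fin n → ℕ) (w : G), (∀ i, r i < p) ∧ (∀ i, (p : ℤ) ∣ b i - r i) ∧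
      ∏ i, u i ^ b i = (∏ i, u i ^ r i) * w ^ p := by
  have hp' : (0 : ℤ) < p := by exact_mod_cast hp
  refine ⟨fun i => (b i % p).toNat, ∏ i, u i ^ (b i / p), fun i => ?_, fun i => ?_, ?_⟩
  · have h1 := Int.emod_lt_of_pos (b i) hp'
    have h2 := Int.emod_nonneg (b i) hp'.ne'
    have h3 : ((b i % p).toNat : ℤ) = b i % p := Int.toNat_of_nonneg h2
    show (b i % p).toNat < p
    omega
  · rw [Int.toNat_of_nonneg (Int.emod_nonneg (b i) hp'.ne')]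
    exact Int.dvd_self_sub_emod
  · rw [← Finset.prod_pow, ← Finset.prod_mul_distrib]
    refine Finset.prod_congr rfl fun i _ => ?_
    have h2 := Int.emod_nonneg (b i) hp'.ne'
    rw [← zpow_natCast (u i), Int.toNat_of_nonneg h2, ← zpow_natCast (u i ^ (b i / p)), ← zpow_mul,
      ← zpow_add]
    congr 1
    rw [mul_comm]
    exact (Int.emod_add_mul_ediv (b i) p).symm

section

variable {p : ℕ} [hp : Fact p.Prime] {K : Type*} [Field K] [NumberField K]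
  [IsCyclotomicExtension {p} ℚ K] {ζ : K} (hζ : IsPrimitiveRoot ζ p)

/-- The certificate property: the logarithmic-derivative numerators of the polynomials `f i`
are linearly independent modulo `(p, X ^ (p - 2))`. -/
def LogDerivCert (p : ℕ) {n : ℕ} (f : Fin n → ℤ[X]) : Prop :=
  ∀ b : Fin n → ℕ,
    (X ^ (p - 2) ∣ ∑ i, (b i : (ZMod p)[X]) *
      (derivative ((f i).map (Int.castRingHom (ZMod p))) *
        ∏ j ∈ Finset.univ.erase i, (f j).map (Int.castRingHom (ZMod p)))) →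
    ∀ i, p ∣ b i

variable {n : ℕ} (f : Fin n → ℤ[X]) (u : Fin n → (𝓞 K)ˣ)

include hζ in
/-- Step A: a product of natural powers of the `u i` which is congruent to a rational integer
modulo `p` has all exponents divisible by `p`. -/
theorem dvd_exponents_of_congr_int
    (hu : ∀ i, ((u i : (𝓞 K)ˣ) : 𝓞 K) = aeval (hζ.toInteger - 1) (f i))
    (hf0 : ∀ i, ¬ (p : ℤ) ∣ (f i).coeff 0)
    (hcert : LogDerivCert p f) (b : Fin n → ℕ) (a : ℤ)
    (h : (p : 𝓞 K) ∣ ((∏ i, u i ^ b i : (𝓞 K)ˣ) : 𝓞 K) - a) : ∀ i, p ∣ b i := by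
  classical
  have h1 : ((∏ i, u i ^ b i : (𝓞 K)ˣ) : 𝓞 K) = aeval (hζ.toInteger - 1) (∏ i, f i ^ b i) := by
    rw [map_prod, Units.coe_prod]
    refine Finset.prod_congr rfl fun i _ => ?_
    rw [map_pow, Units.val_pow_eq_pow_val, hu]
  rw [h1] at h
  have h2 := X_pow_dvd_derivative_of_dvd_sub hζ _ a h
  rw [Polynomial.map_prod] at h2
  simp only [Polynomial.map_pow] at h2
  refine hcert b (X_pow_dvd_logDeriv_numerator Finset.univ _ b (fun i _ => ?_) _ h2)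
  rw [coeff_map, eq_intCast, Ne, ZMod.intCast_zmod_eq_zero_iff_dvd]
  exact hf0 i

include hζ in
/-- **Kummer's lemma from a certificate.** -/
theorem kummer_lemma_of_cert (hp2 : 2 < p) (hn : (p - 1) / 2 ≤ n)
    (hu : ∀ i, ((u i : (𝓞 K)ˣ) : 𝓞 K) = aeval (hζ.toInteger - 1) (f i))
    (hf0 : ∀ i, ¬ (p : ℤ) ∣ (f i).coeff 0)
    (hcert : LogDerivCert p f) (x : (𝓞 K)ˣ)
    (hx : ∃ a : ℤ, (p : 𝓞 K) ∣ (x : 𝓞 K) - a) : ∃ v : (𝓞 K)ˣ, x = v ^ p := by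
  have hp0 : 0 < p := hp.out.pos
  have hA := dvd_exponents_of_congr_int hζ f u hu hf0 hcert
  -- independence modulo `p`-th powers
  have hind : ∀ b : Fin n → ℤ, (∃ v : (𝓞 K)ˣ, ∏ i, u i ^ b i = v ^ p) → ∀ i, (p : ℤ) ∣ b i := by
    rintro b ⟨v, hv⟩
    obtain ⟨r, w, hr, hbr, hprod⟩ := exists_reduced_exponents hp0 u b
    have h1 : ∏ i, u i ^ r i = (v * w⁻¹) ^ p := by
      rw [mul_pow, ← hv, hprod, inv_pow, mul_inv_cancel_right]
    obtain ⟨a, ha⟩ := exists_int_dvd_pow_sub hζ ((v * w⁻¹ : (𝓞 K)ˣ) : 𝓞 K)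
    have h2 : (p : 𝓞 K) ∣ ((∏ i, u i ^ r i : (𝓞 K)ˣ) : 𝓞 K) - a := by
      rw [h1, Units.val_pow_eq_pow_val]; exact ha
    have h3 := hA r a h2
    intro i
    have h4 : r i = 0 := Nat.eq_zero_of_dvd_of_lt (h3 i) (hr i)
    have h5 := hbr i
    rw [h4] at h5
    simpa using h5
  have hrank : Units.rank K + 1 ≤ n := by rw [rank_add_one_eq K p hp2]; exact hn
  obtain ⟨b, v, hxb⟩ := exists_eq_prod_zpow_mul_pow hrank u hind x
  obtain ⟨r, w, hr, hbr, hprod⟩ := exists_reduced_exponents hp0 u b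
  obtain ⟨a, s, hs⟩ := hx
  set y : (𝓞 K)ˣ := (w * v)⁻¹ with hy
  have h1 : ∏ i, u i ^ r i = x * y ^ p := by
    rw [hxb, hprod, hy, inv_pow, mul_assoc, mul_assoc, ← mul_assoc (w ^ p), ← mul_pow,
      mul_inv_cancel, mul_one]
  obtain ⟨a', t, ht⟩ := exists_int_dvd_pow_sub hζ ((y : (𝓞 K)ˣ) : 𝓞 K)
  have h2 : (p : 𝓞 K) ∣ ((∏ i, u i ^ r i : (𝓞 K)ˣ) : 𝓞 K) - ((a * a' : ℤ)) := by
    rw [h1, Units.val_mul, Units.val_pow_eq_pow_val]
    refine ⟨s * (y : 𝓞 K) ^ p + a * t, ?_⟩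
    have e1 : (x : 𝓞 K) = a + p * s := by rw [← hs]; ring
    have e2 : ((y : (𝓞 K)ˣ) : 𝓞 K) ^ p = a' + p * t := by rw [← ht]; ring
    rw [e1]
    push_cast
    have e3 : (↑a + ↑p * s) * ((y : (𝓞 K)ˣ) : 𝓞 K) ^ p - (a : 𝓞 K) * a' =
        (p : 𝓞 K) * s * ((y : (𝓞 K)ˣ) : 𝓞 K) ^ p + a * (((y : (𝓞 K)ˣ) : 𝓞 K) ^ p - a') := by ring
    rw [e3, ht]
    ring
  have h3 := hA r _ h2
  have h4 : ∀ i, r i = 0 := fun i => Nat.eq_zero_of_dvd_of_lt (h3 i) (hr i)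
  refine ⟨w * v, ?_⟩
  rw [hxb, hprod]
  simp [h4, mul_pow]

end

end Fermat.Agent.Lib.Kummer
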