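import Mathlib
import Fermat.Agent.Lib.Kummer.KLGeneric

set_option autoImplicit false

open Polynomial NumberField

namespace Fermat.Agent.Lib.Kummer

/-- Polynomial (in the variable `T = ζ - 1`) representing the `i`-th cyclotomic unit:
`ζ = 1 + T` for `i = 0` and `1 + ζ + ⋯ + ζ ^ i` for `i ≥ 1`. -/
noncomputable def cycPoly (i : ℕ) : ℤ[X] :=
  if i = 0 then X + 1 else ∑ k ∈ Finset.range (i + 1), (X + 1) ^ k

lemma cycPoly_coeff_zero (i : ℕ) : (cycPoly i).coeff 0 = if i = 0 then 1 else (i + 1 : ℤ) := by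
  unfold cycPoly
  split_ifs with h
  · simp
  · rw [coeff_zero_eq_eval_zero, eval_finsetSum]
    simp

/-- The integer-polynomial logarithmic derivative numerators. -/
noncomputable def logNum {n : ℕ} (f : Fin n → ℤ[X]) (i : Fin n) : ℤ[X] :=
  derivative (f i) * ∏ j ∈ Finset.univ.erase i, f j

/-- A certificate in terms of integer coefficients implies `LogDerivCert`. -/
theorem logDerivCert_of_coeff {p : ℕ} {n : ℕ} (f : Fin n → ℤ[X])
    (h : ∀ b : Fin n → ℕ,
      (∀ k < p - 2, (p : ℤ) ∣ ∑ i, (b i : ℤ) * (logNum f i).coeff k) → ∀ i, p ∣ b i) :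
    LogDerivCert p f := by
  intro b hb
  refine h b fun k hk => ?_
  have h1 : (∑ i, (b i : (ZMod p)[X]) *
      (derivative ((f i).map (Int.castRingHom (ZMod p))) *
        ∏ j ∈ Finset.univ.erase i, (f j).map (Int.castRingHom (ZMod p)))) =
      (∑ i, C (b i : ℤ) * logNum f i).map (Int.castRingHom (ZMod p)) := by
    rw [Polynomial.map_sum]
    refine Finset.sum_congr rfl fun i _ => ?_
    rw [Polynomial.map_mul, logNum, Polynomial.map_mul, derivative_map, Polynomial.map_prod,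
      map_C]
    simp
  rw [h1, X_pow_dvd_iff] at hb
  have h2 := hb k hk
  rw [coeff_map, finsetSum_coeff, eq_intCast, ZMod.intCast_zmod_eq_zero_iff_dvd] at h2
  simpa [coeff_C_mul] using h2

section Units

variable {p : ℕ} [hp : Fact p.Prime] {K : Type*} [Field K] [NumberField K]
  [IsCyclotomicExtension {p} ℚ K] {ζ : K} (hζ : IsPrimitiveRoot ζ p)

include hζ in
lemma isUnit_aeval_cycPoly (i : ℕ) (hi : i + 1 < p) :
    IsUnit (aeval (hζ.toInteger - 1) (cycPoly i)) := by
  unfold cycPoly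
  split_ifs with h
  · rw [map_add, aeval_X, map_one, sub_add_cancel]
    exact hζ.toInteger_isPrimitiveRoot.isUnit (NeZero.ne p)
  · rw [map_sum]
    simp only [map_pow, map_add, aeval_X, map_one, sub_add_cancel]
    refine hζ.toInteger_isPrimitiveRoot.geom_sum_isUnit hp.out.two_le ?_
    exact ((Nat.Prime.coprime_iff_not_dvd hp.out).mpr
      (Nat.not_dvd_of_pos_of_lt (Nat.succ_pos i) hi)).symm

/-- The `i`-th cyclotomic unit (`ζ` for `i = 0`, `1 + ζ + ⋯ + ζ ^ i` otherwise). -/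
noncomputable def cycUnit (i : ℕ) (hi : i + 1 < p) : (𝓞 K)ˣ :=
  (isUnit_aeval_cycPoly hζ i hi).unit

lemma coe_cycUnit (i : ℕ) (hi : i + 1 < p) :
    ((cycUnit hζ i hi : (𝓞 K)ˣ) : 𝓞 K) = aeval (hζ.toInteger - 1) (cycPoly i) :=
  IsUnit.unit_spec _

lemma not_dvd_cycPoly_coeff_zero (i : ℕ) (hi : i + 1 < p) :
    ¬ (p : ℤ) ∣ (cycPoly i).coeff 0 := by
  rw [cycPoly_coeff_zero]
  split_ifs with h
  · intro h1
    have := Int.natAbs_dvd_natAbs.mpr h1
    simp only [Int.natAbs_natCast, Int.natAbs_one, Nat.dvd_one] at this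
    exact hp.out.one_lt.ne' this
  · intro h1
    have h2 : (p : ℤ) ∣ ((i + 1 : ℕ) : ℤ) := by exact_mod_cast h1
    exact Nat.not_dvd_of_pos_of_lt (Nat.succ_pos i) hi (Int.natCast_dvd_natCast.mp h2)

include hζ in
/-- **Kummer's lemma** for the prime `p`, given the logarithmic-derivative certificate for the
cyclotomic units. -/
theorem kummer_lemma_of_cycCert (hp2 : 2 < p)
    (hcert : LogDerivCert p (fun i : Fin ((p - 1) / 2) => cycPoly i)) (x : (𝓞 K)ˣ)
    (hx : ∃ a : ℤ, (p : 𝓞 K) ∣ (x : 𝓞 K) - a) : ∃ v : (𝓞 K)ˣ, x = v ^ p := by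
  have hlt : ∀ i : Fin ((p - 1) / 2), (i : ℕ) + 1 < p := fun i => by
    have := i.2
    omega
  exact kummer_lemma_of_cert hζ (fun i : Fin ((p - 1) / 2) => cycPoly i)
    (fun i => cycUnit hζ i (hlt i)) hp2 le_rfl (fun i => coe_cycUnit hζ i (hlt i))
    (fun i => not_dvd_cycPoly_coeff_zero i (hlt i)) hcert x hx

end Units

end Fermat.Agent.Lib.Kummer
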