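import Mathlib
import Fermat.Agent.Lib.Kummer.CycUnits

set_option autoImplicit false
set_option linter.unusedSimpArgs false
set_option linter.unusedVariables false

open Polynomial NumberField

namespace Fermat.Agent.Lib.Kummer

lemma cycPoly11_0 : cycPoly 0 = 1 + X := by
  simp [cycPoly]; ring

lemma cycPoly11_1 : cycPoly 1 = 2 + X := by
  simp [cycPoly, Finset.sum_range_succ]; ring

lemma cycPoly11_2 : cycPoly 2 = 3 + 3 * X + X^2 := by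
  simp [cycPoly, Finset.sum_range_succ]; ring

lemma cycPoly11_3 : cycPoly 3 = 4 + 6 * X + 4 * X^2 + X^3 := by
  simp [cycPoly, Finset.sum_range_succ]; ring

lemma cycPoly11_4 : cycPoly 4 = 5 + 10 * X + 10 * X^2 + 5 * X^3 + X^4 := by
  simp [cycPoly, Finset.sum_range_succ]; ring

lemma logNum11_0 : logNum (fun i : Fin 5 => cycPoly i) 0 =
    120 + 600 * X + 1450 * X^2 + 2200 * X^3 + 2299 * X^4 + 1717 * X^5 + 923 * X^6 + 351 * X^7 + 90 * X^8 + 14 * X^9 + X^10 := by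
  have he : (Finset.univ.erase (0 : Fin 5)) = {1, 2, 3, 4} := by decide
  rw [logNum, he]
  have h0 : ((0 : Fin 5) : ℕ) = 0 := rfl
  have h1 : ((1 : Fin 5) : ℕ) = 1 := rfl
  have h2 : ((2 : Fin 5) : ℕ) = 2 := rfl
  have h3 : ((3 : Fin 5) : ℕ) = 3 := rfl
  have h4 : ((4 : Fin 5) : ℕ) = 4 := rfl
  simp only [h0, h1, h2, h3, h4, cycPoly11_0, cycPoly11_1, cycPoly11_2, cycPoly11_3, cycPoly11_4]
  simp
  simp only [cycPoly11_0, cycPoly11_1, cycPoly11_2, cycPoly11_3, cycPoly11_4]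
  try ring

lemma logNum11_1 : logNum (fun i : Fin 5 => cycPoly i) 1 =
    60 + 330 * X + 860 * X^2 + 1395 * X^3 + 1552 * X^4 + 1232 * X^5 + 704 * X^6 + 285 * X^7 + 78 * X^8 + 13 * X^9 + X^10 := by
  have he : (Finset.univ.erase (1 : Fin 5)) = {0, 2, 3, 4} := by decide
  rw [logNum, he]
  have h0 : ((0 : Fin 5) : ℕ) = 0 := rfl
  have h1 : ((1 : Fin 5) : ℕ) = 1 := rfl
  have h2 : ((2 : Fin 5) : ℕ) = 2 := rfl
  have h3 : ((3 : Fin 5) : ℕ) = 3 := rfl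
  have h4 : ((4 : Fin 5) : ℕ) = 4 := rfl
  simp only [h0, h1, h2, h3, h4, cycPoly11_0, cycPoly11_1, cycPoly11_2, cycPoly11_3, cycPoly11_4]
  simp
  simp only [cycPoly11_0, cycPoly11_1, cycPoly11_2, cycPoly11_3, cycPoly11_4]
  try ring

lemma logNum11_2 : logNum (fun i : Fin 5 => cycPoly i) 2 =
    120 + 680 * X + 1810 * X^2 + 2980 * X^3 + 3349 * X^4 + 2673 * X^5 + 1528 * X^6 + 615 * X^7 + 166 * X^8 + 27 * X^9 + 2 * X^10 := by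
  have he : (Finset.univ.erase (2 : Fin 5)) = {0, 1, 3, 4} := by decide
  rw [logNum, he]
  have h0 : ((0 : Fin 5) : ℕ) = 0 := rfl
  have h1 : ((1 : Fin 5) : ℕ) = 1 := rfl
  have h2 : ((2 : Fin 5) : ℕ) = 2 := rfl
  have h3 : ((3 : Fin 5) : ℕ) = 3 := rfl
  have h4 : ((4 : Fin 5) : ℕ) = 4 := rfl
  simp only [h0, h1, h2, h3, h4, cycPoly11_0, cycPoly11_1, cycPoly11_2, cycPoly11_3, cycPoly11_4]
  simp
  simp only [cycPoly11_0, cycPoly11_1, cycPoly11_2, cycPoly11_3, cycPoly11_4]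
  try ring

lemma logNum11_3 : logNum (fun i : Fin 5 => cycPoly i) 3 =
    180 + 1050 * X + 2850 * X^2 + 4745 * X^3 + 5356 * X^4 + 4268 * X^5 + 2422 * X^6 + 963 * X^7 + 256 * X^8 + 41 * X^9 + 3 * X^10 := by
  have he : (Finset.univ.erase (3 : Fin 5)) = {0, 1, 2, 4} := by decide
  rw [logNum, he]
  have h0 : ((0 : Fin 5) : ℕ) = 0 := rfl
  have h1 : ((1 : Fin 5) : ℕ) = 1 := rfl
  have h2 : ((2 : Fin 5) : ℕ) = 2 := rfl
  have h3 : ((3 : Fin 5) : ℕ) = 3 := rfl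
  have h4 : ((4 : Fin 5) : ℕ) = 4 := rfl
  simp only [h0, h1, h2, h3, h4, cycPoly11_0, cycPoly11_1, cycPoly11_2, cycPoly11_3, cycPoly11_4]
  simp
  simp only [cycPoly11_0, cycPoly11_1, cycPoly11_2, cycPoly11_3, cycPoly11_4]
  try ring

lemma logNum11_4 : logNum (fun i : Fin 5 => cycPoly i) 4 =
    240 + 1440 * X + 3980 * X^2 + 6676 * X^3 + 7524 * X^4 + 5950 * X^5 + 3341 * X^6 + 1314 * X^7 + 346 * X^8 + 55 * X^9 + 4 * X^10 := by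
  have he : (Finset.univ.erase (4 : Fin 5)) = {0, 1, 2, 3} := by decide
  rw [logNum, he]
  have h0 : ((0 : Fin 5) : ℕ) = 0 := rfl
  have h1 : ((1 : Fin 5) : ℕ) = 1 := rfl
  have h2 : ((2 : Fin 5) : ℕ) = 2 := rfl
  have h3 : ((3 : Fin 5) : ℕ) = 3 := rfl
  have h4 : ((4 : Fin 5) : ℕ) = 4 := rfl
  simp only [h0, h1, h2, h3, h4, cycPoly11_0, cycPoly11_1, cycPoly11_2, cycPoly11_3, cycPoly11_4]
  simp
  simp only [cycPoly11_0, cycPoly11_1, cycPoly11_2, cycPoly11_3, cycPoly11_4]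
  try ring

theorem logDerivCert_eleven : LogDerivCert 11 (fun i : Fin 5 => cycPoly i) := by
  refine logDerivCert_of_coeff _ fun b hb => ?_
  have hb' : ∀ k < 9, (11 : ℤ) ∣ (b 0 : ℤ) * (logNum (fun i : Fin 5 => cycPoly i) 0).coeff k + (b 1 : ℤ) * (logNum (fun i : Fin 5 => cycPoly i) 1).coeff k + (b 2 : ℤ) * (logNum (fun i : Fin 5 => cycPoly i) 2).coeff k + (b 3 : ℤ) * (logNum (fun i : Fin 5 => cycPoly i) 3).coeff k + (b 4 : ℤ) * (logNum (fun i : Fin 5 => cycPoly i) 4).coeff k := by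
    intro k hk
    have := hb k hk
    rw [Fin.sum_univ_five] at this
    exact_mod_cast this
  rw [logNum11_0, logNum11_1, logNum11_2, logNum11_3, logNum11_4] at hb'
  obtain ⟨t0, ht0⟩ := hb' 0 (by norm_num)
  obtain ⟨t1, ht1⟩ := hb' 1 (by norm_num)
  obtain ⟨t2, ht2⟩ := hb' 2 (by norm_num)
  obtain ⟨t3, ht3⟩ := hb' 3 (by norm_num)
  obtain ⟨t4, ht4⟩ := hb' 4 (by norm_num)
  obtain ⟨t5, ht5⟩ := hb' 5 (by norm_num)
  obtain ⟨t6, ht6⟩ := hb' 6 (by norm_num)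
  obtain ⟨t7, ht7⟩ := hb' 7 (by norm_num)
  obtain ⟨t8, ht8⟩ := hb' 8 (by norm_num)
  simp [coeff_X, coeff_X_pow, coeff_one] at ht0 ht1 ht2 ht3 ht4 ht5 ht6 ht7 ht8
  intro i
  fin_cases i
  · show 11 ∣ b 0
    have : (b 0 : ℤ) = 11 * (5 * t1 + 10 * t3 + 6 * t5 + 2 * t7 - 3273 * (b 0 : ℤ) - 2142 * (b 1 : ℤ) - 4588 * (b 2 : ℤ) - 7294 * (b 3 : ℤ) - 10208 * (b 4 : ℤ)) := by linear_combination 5 * ht1 + 10 * ht3 + 6 * ht5 + 2 * ht7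
    exact Int.natCast_dvd_natCast.mp ⟨_, this⟩
  · show 11 ∣ b 1
    have : (b 1 : ℤ) = 11 * (8 * t0 + 3 * t1 + 9 * t3 + 10 * t7 - 2370 * (b 0 : ℤ) - 1534 * (b 1 : ℤ) - 3270 * (b 2 : ℤ) - 5175 * (b 3 : ℤ) - 7224 * (b 4 : ℤ)) := by linear_combination 8 * ht0 + 3 * ht1 + 9 * ht3 + 10 * ht7
    exact Int.natCast_dvd_natCast.mp ⟨_, this⟩
  · show 11 ∣ b 2
    have : (b 2 : ℤ) = 11 * (1 * t0 + 10 * t1 + 5 * t3 + 2 * t5 + 6 * t7 - 2060 * (b 0 : ℤ) - 1319 * (b 1 : ℤ) - 2805 * (b 2 : ℤ) - 4429 * (b 3 : ℤ) - 6164 * (b 4 : ℤ)) := by linear_combination 1 * ht0 + 10 * ht1 + 5 * ht3 + 2 * ht5 + 6 * ht7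
    exact Int.natCast_dvd_natCast.mp ⟨_, this⟩
  · show 11 ∣ b 3
    have : (b 3 : ℤ) = 11 * (7 * t0 + 8 * t1 + 3 * t3 + 10 * t5 + 7 * t7 - 2897 * (b 0 : ℤ) - 1960 * (b 1 : ℤ) - 4205 * (b 2 : ℤ) - 6665 * (b 3 : ℤ) - 9266 * (b 4 : ℤ)) := by linear_combination 7 * ht0 + 8 * ht1 + 3 * ht3 + 10 * ht5 + 7 * ht7
    exact Int.natCast_dvd_natCast.mp ⟨_, this⟩
  · show 11 ∣ b 4
    have : (b 4 : ℤ) = 11 * (5 * t1 + 10 * t3 + 5 * t5 + 2 * t7 - 3117 * (b 0 : ℤ) - 2030 * (b 1 : ℤ) - 4345 * (b 2 : ℤ) - 6906 * (b 3 : ℤ) - 9667 * (b 4 : ℤ)) := by linear_combination 5 * ht1 + 10 * ht3 + 5 * ht5 + 2 * ht7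
    exact Int.natCast_dvd_natCast.mp ⟨_, this⟩

end Fermat.Agent.Lib.Kummer

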