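import Mathlib
import Fermat.Agent.Lib.Kummer.CycUnits

set_option autoImplicit false
set_option linter.unusedSimpArgs false
set_option linter.unusedVariables false

open Polynomial NumberField

namespace Fermat.Agent.Lib.Kummer

lemma cycPoly13_0 : cycPoly 0 = 1 + X := by
  simp [cycPoly]; ring

lemma cycPoly13_1 : cycPoly 1 = 2 + X := by
  simp [cycPoly, Finset.sum_range_succ]; ring

lemma cycPoly13_2 : cycPoly 2 = 3 + 3 * X + X^2 := by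
  simp [cycPoly, Finset.sum_range_succ]; ring

lemma cycPoly13_3 : cycPoly 3 = 4 + 6 * X + 4 * X^2 + X^3 := by
  simp [cycPoly, Finset.sum_range_succ]; ring

lemma cycPoly13_4 : cycPoly 4 = 5 + 10 * X + 10 * X^2 + 5 * X^3 + X^4 := by
  simp [cycPoly, Finset.sum_range_succ]; ring

lemma cycPoly13_5 : cycPoly 5 = 6 + 15 * X + 20 * X^2 + 15 * X^3 + 6 * X^4 + X^5 := by
  simp [cycPoly, Finset.sum_range_succ]; ring

lemma logNum13_0 : logNum (fun i : Fin 6 => cycPoly i) 0 =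
    720 + 5400 * X + 20100 * X^2 + 48750 * X^3 + 85514 * X^4 + 114257 * X^5 + 119573 * X^6 + 99426 * X^7 + 66014 * X^8 + 34900 * X^9 + 14536 * X^10 + 4674 * X^11 + 1121 * X^12 + 189 * X^13 + 20 * X^14 + X^15 := by
  have he : (Finset.univ.erase (0 : Fin 6)) = {1, 2, 3, 4, 5} := by decide
  rw [logNum, he]
  have h0 : ((0 : Fin 6) : ℕ) = 0 := rfl
  have h1 : ((1 : Fin 6) : ℕ) = 1 := rfl
  have h2 : ((2 : Fin 6) : ℕ) = 2 := rfl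
  have h3 : ((3 : Fin 6) : ℕ) = 3 := rfl
  have h4 : ((4 : Fin 6) : ℕ) = 4 := rfl
  have h5 : ((5 : Fin 6) : ℕ) = 5 := rfl
  simp only [h0, h1, h2, h3, h4, h5, cycPoly13_0, cycPoly13_1, cycPoly13_2, cycPoly13_3, cycPoly13_4, cycPoly13_5]
  simp
  simp only [cycPoly13_0, cycPoly13_1, cycPoly13_2, cycPoly13_3, cycPoly13_4, cycPoly13_5]
  try ring

lemma logNum13_1 : logNum (fun i : Fin 6 => cycPoly i) 1 =
    360 + 2880 * X + 11310 * X^2 + 28770 * X^3 + 52747 * X^4 + 73512 * X^5 + 80159 * X^6 + 69420 * X^7 + 48010 * X^8 + 26452 * X^9 + 11492 * X^10 + 3859 * X^11 + 968 * X^12 + 171 * X^13 + 19 * X^14 + X^15 := by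
  have he : (Finset.univ.erase (1 : Fin 6)) = {0, 2, 3, 4, 5} := by decide
  rw [logNum, he]
  have h0 : ((0 : Fin 6) : ℕ) = 0 := rfl
  have h1 : ((1 : Fin 6) : ℕ) = 1 := rfl
  have h2 : ((2 : Fin 6) : ℕ) = 2 := rfl
  have h3 : ((3 : Fin 6) : ℕ) = 3 := rfl
  have h4 : ((4 : Fin 6) : ℕ) = 4 := rfl
  have h5 : ((5 : Fin 6) : ℕ) = 5 := rfl
  simp only [h0, h1, h2, h3, h4, h5, cycPoly13_0, cycPoly13_1, cycPoly13_2, cycPoly13_3, cycPoly13_4, cycPoly13_5]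
  simp
  simp only [cycPoly13_0, cycPoly13_1, cycPoly13_2, cycPoly13_3, cycPoly13_4, cycPoly13_5]
  try ring

lemma logNum13_2 : logNum (fun i : Fin 6 => cycPoly i) 2 =
    720 + 5880 * X + 23460 * X^2 + 60430 * X^3 + 111914 * X^4 + 157223 * X^5 + 172483 * X^6 + 149995 * X^7 + 103950 * X^8 + 57259 * X^9 + 24803 * X^10 + 8278 * X^11 + 2056 * X^12 + 358 * X^13 + 39 * X^14 + 2 * X^15 := by
  have he : (Finset.univ.erase (2 : Fin 6)) = {0, 1, 3, 4, 5} := by decide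
  rw [logNum, he]
  have h0 : ((0 : Fin 6) : ℕ) = 0 := rfl
  have h1 : ((1 : Fin 6) : ℕ) = 1 := rfl
  have h2 : ((2 : Fin 6) : ℕ) = 2 := rfl
  have h3 : ((3 : Fin 6) : ℕ) = 3 := rfl
  have h4 : ((4 : Fin 6) : ℕ) = 4 := rfl
  have h5 : ((5 : Fin 6) : ℕ) = 5 := rfl
  simp only [h0, h1, h2, h3, h4, h5, cycPoly13_0, cycPoly13_1, cycPoly13_2, cycPoly13_3, cycPoly13_4, cycPoly13_5]
  simp
  simp only [cycPoly13_0, cycPoly13_1, cycPoly13_2, cycPoly13_3, cycPoly13_4, cycPoly13_5]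
  try ring

lemma logNum13_3 : logNum (fun i : Fin 6 => cycPoly i) 3 =
    1080 + 9000 * X + 36450 * X^2 + 94920 * X^3 + 177141 * X^4 + 250078 * X^5 + 274997 * X^6 + 239128 * X^7 + 165322 * X^8 + 90640 * X^9 + 38998 * X^10 + 12905 * X^11 + 3174 * X^12 + 547 * X^13 + 59 * X^14 + 3 * X^15 := by
  have he : (Finset.univ.erase (3 : Fin 6)) = {0, 1, 2, 4, 5} := by decide
  rw [logNum, he]
  have h0 : ((0 : Fin 6) : ℕ) = 0 := rfl
  have h1 : ((1 : Fin 6) : ℕ) = 1 := rfl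
  have h2 : ((2 : Fin 6) : ℕ) = 2 := rfl
  have h3 : ((3 : Fin 6) : ℕ) = 3 := rfl
  have h4 : ((4 : Fin 6) : ℕ) = 4 := rfl
  have h5 : ((5 : Fin 6) : ℕ) = 5 := rfl
  simp only [h0, h1, h2, h3, h4, h5, cycPoly13_0, cycPoly13_1, cycPoly13_2, cycPoly13_3, cycPoly13_4, cycPoly13_5]
  simp
  simp only [cycPoly13_0, cycPoly13_1, cycPoly13_2, cycPoly13_3, cycPoly13_4, cycPoly13_5]
  try ring

lemma logNum13_4 : logNum (fun i : Fin 6 => cycPoly i) 4 =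
    1440 + 12240 * X + 50280 * X^2 + 132156 * X^3 + 247924 * X^4 + 350660 * X^5 + 385236 * X^6 + 333895 * X^7 + 229676 * X^8 + 125139 * X^9 + 53475 * X^10 + 17575 * X^11 + 4295 * X^12 + 736 * X^13 + 79 * X^14 + 4 * X^15 := by
  have he : (Finset.univ.erase (4 : Fin 6)) = {0, 1, 2, 3, 5} := by decide
  rw [logNum, he]
  have h0 : ((0 : Fin 6) : ℕ) = 0 := rfl
  have h1 : ((1 : Fin 6) : ℕ) = 1 := rfl
  have h2 : ((2 : Fin 6) : ℕ) = 2 := rfl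
  have h3 : ((3 : Fin 6) : ℕ) = 3 := rfl
  have h4 : ((4 : Fin 6) : ℕ) = 4 := rfl
  have h5 : ((5 : Fin 6) : ℕ) = 5 := rfl
  simp only [h0, h1, h2, h3, h4, h5, cycPoly13_0, cycPoly13_1, cycPoly13_2, cycPoly13_3, cycPoly13_4, cycPoly13_5]
  simp
  simp only [cycPoly13_0, cycPoly13_1, cycPoly13_2, cycPoly13_3, cycPoly13_4, cycPoly13_5]
  try ring

lemma logNum13_5 : logNum (fun i : Fin 6 => cycPoly i) 5 =
    1800 + 15600 * X + 64950 * X^2 + 172030 * X^3 + 323615 * X^4 + 457250 * X^5 + 500545 * X^6 + 431656 * X^7 + 295254 * X^8 + 159970 * X^9 + 68006 * X^10 + 22249 * X^11 + 5416 * X^12 + 925 * X^13 + 99 * X^14 + 5 * X^15 := by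
  have he : (Finset.univ.erase (5 : Fin 6)) = {0, 1, 2, 3, 4} := by decide
  rw [logNum, he]
  have h0 : ((0 : Fin 6) : ℕ) = 0 := rfl
  have h1 : ((1 : Fin 6) : ℕ) = 1 := rfl
  have h2 : ((2 : Fin 6) : ℕ) = 2 := rfl
  have h3 : ((3 : Fin 6) : ℕ) = 3 := rfl
  have h4 : ((4 : Fin 6) : ℕ) = 4 := rfl
  have h5 : ((5 : Fin 6) : ℕ) = 5 := rfl
  simp only [h0, h1, h2, h3, h4, h5, cycPoly13_0, cycPoly13_1, cycPoly13_2, cycPoly13_3, cycPoly13_4, cycPoly13_5]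
  simp
  simp only [cycPoly13_0, cycPoly13_1, cycPoly13_2, cycPoly13_3, cycPoly13_4, cycPoly13_5]
  try ring

theorem logDerivCert_thirteen : LogDerivCert 13 (fun i : Fin 6 => cycPoly i) := by
  refine logDerivCert_of_coeff _ fun b hb => ?_
  have hb' : ∀ k < 11, (13 : ℤ) ∣ (b 0 : ℤ) * (logNum (fun i : Fin 6 => cycPoly i) 0).coeff k + (b 1 : ℤ) * (logNum (fun i : Fin 6 => cycPoly i) 1).coeff k + (b 2 : ℤ) * (logNum (fun i : Fin 6 => cycPoly i) 2).coeff k + (b 3 : ℤ) * (logNum (fun i : Fin 6 => cycPoly i) 3).coeff k + (b 4 : ℤ) * (logNum (fun i : Fin 6 => cycPoly i) 4).coeff k + (b 5 : ℤ) * (logNum (fun i : Fin 6 => cycPoly i) 5).coeff k := by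
    intro k hk
    have := hb k hk
    rw [Fin.sum_univ_six] at this
    exact_mod_cast this
  rw [logNum13_0, logNum13_1, logNum13_2, logNum13_3, logNum13_4, logNum13_5] at hb'
  obtain ⟨t0, ht0⟩ := hb' 0 (by norm_num)
  obtain ⟨t1, ht1⟩ := hb' 1 (by norm_num)
  obtain ⟨t2, ht2⟩ := hb' 2 (by norm_num)
  obtain ⟨t3, ht3⟩ := hb' 3 (by norm_num)
  obtain ⟨t4, ht4⟩ := hb' 4 (by norm_num)
  obtain ⟨t5, ht5⟩ := hb' 5 (by norm_num)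
  obtain ⟨t6, ht6⟩ := hb' 6 (by norm_num)
  obtain ⟨t7, ht7⟩ := hb' 7 (by norm_num)
  obtain ⟨t8, ht8⟩ := hb' 8 (by norm_num)
  obtain ⟨t9, ht9⟩ := hb' 9 (by norm_num)
  obtain ⟨t10, ht10⟩ := hb' 10 (by norm_num)
  simp [coeff_X, coeff_X_pow, coeff_one] at ht0 ht1 ht2 ht3 ht4 ht5 ht6 ht7 ht8 ht9 ht10
  intro i
  fin_cases i
  · show 13 ∣ b 0
    have : (b 0 : ℤ) = 13 * (10 * t0 + 6 * t1 + 10 * t3 + 11 * t5 + 8 * t7 + 6 * t9 - 214518 * (b 0 : ℤ) - 140868 * (b 1 : ℤ) - 301519 * (b 2 : ℤ) - 478594 * (b 3 : ℤ) - 668358 * (b 4 : ℤ) - 867286 * (b 5 : ℤ)) := by linear_combination 10 * ht0 + 6 * ht1 + 10 * ht3 + 11 * ht5 + 8 * ht7 + 6 * ht9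
    exact Int.natCast_dvd_natCast.mp ⟨_, this⟩
  · show 13 ∣ b 1
    have : (b 1 : ℤ) = 13 * (12 * t0 + 1 * t1 + 5 * t3 + 9 * t5 + 3 * t7 + 9 * t9 - 146037 * (b 0 : ℤ) - 96845 * (b 1 : ℤ) - 207461 * (b 2 : ℤ) - 329262 * (b 3 : ℤ) - 459552 * (b 4 : ℤ) - 595946 * (b 5 : ℤ)) := by linear_combination 12 * ht0 + 1 * ht1 + 5 * ht3 + 9 * ht5 + 3 * ht7 + 9 * ht9
    exact Int.natCast_dvd_natCast.mp ⟨_, this⟩
  · show 13 ∣ b 2
    have : (b 2 : ℤ) = 13 * (12 * t0 + 10 * t1 + 5 * t3 + 5 * t5 + 7 * t7 + 4 * t9 - 131789 * (b 0 : ℤ) - 87406 * (b 1 : ℤ) - 187285 * (b 2 : ℤ) - 297262 * (b 3 : ℤ) - 414737 * (b 4 : ℤ) - 537344 * (b 5 : ℤ)) := by linear_combination 12 * ht0 + 10 * ht1 + 5 * ht3 + 5 * ht5 + 7 * ht7 + 4 * ht9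
    exact Int.natCast_dvd_natCast.mp ⟨_, this⟩
  · show 13 ∣ b 3
    have : (b 3 : ℤ) = 13 * (10 * t0 + 5 * t1 + 6 * t3 + 12 * t5 + 7 * t7 + 10 * t9 - 210982 * (b 0 : ℤ) - 140248 * (b 1 : ℤ) - 300647 * (b 2 : ℤ) - 477427 * (b 3 : ℤ) - 666547 * (b 4 : ℤ) - 864344 * (b 5 : ℤ)) := by linear_combination 10 * ht0 + 5 * ht1 + 6 * ht3 + 12 * ht5 + 7 * ht7 + 10 * ht9
    exact Int.natCast_dvd_natCast.mp ⟨_, this⟩
  · show 13 ∣ b 4
    have : (b 4 : ℤ) = 13 * (11 * t0 + 3 * t1 + 2 * t3 + 5 * t5 + 1 * t9 - 55985 * (b 0 : ℤ) - 35704 * (b 1 : ℤ) - 76138 * (b 2 : ℤ) - 120750 * (b 3 : ℤ) - 168870 * (b 4 : ℤ) - 219760 * (b 5 : ℤ)) := by linear_combination 11 * ht0 + 3 * ht1 + 2 * ht3 + 5 * ht5 + 1 * ht9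
    exact Int.natCast_dvd_natCast.mp ⟨_, this⟩
  · show 13 ∣ b 5
    have : (b 5 : ℤ) = 13 * (11 * t0 + 1 * t1 + 6 * t3 + 4 * t5 + 10 * t7 + 3 * t9 - 143216 * (b 0 : ℤ) - 95928 * (b 1 : ℤ) - 205923 * (b 2 : ℤ) - 327224 * (b 3 : ℤ) - 456771 * (b 4 : ℤ) - 591773 * (b 5 : ℤ)) := by linear_combination 11 * ht0 + 1 * ht1 + 6 * ht3 + 4 * ht5 + 10 * ht7 + 3 * ht9
    exact Int.natCast_dvd_natCast.mp ⟨_, this⟩

end Fermat.Agent.Lib.Kummer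

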