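import Mathlib
import Fermat.Agent.Lib.Kummer.CycUnits

set_option autoImplicit false
set_option linter.unusedSimpArgs false
set_option linter.unusedVariables false

open Polynomial NumberField

namespace Fermat.Agent.Lib.Kummer

lemma cycPoly5_0 : cycPoly 0 = 1 + X := by
  simp [cycPoly]; ring

lemma cycPoly5_1 : cycPoly 1 = 2 + X := by
  simp [cycPoly, Finset.sum_range_succ]; ring

lemma logNum5_0 : logNum (fun i : Fin 2 => cycPoly i) 0 =
    2 + X := by
  have he : (Finset.univ.erase (0 : Fin 2)) = {1} := by decide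
  rw [logNum, he]
  have h0 : ((0 : Fin 2) : ℕ) = 0 := rfl
  have h1 : ((1 : Fin 2) : ℕ) = 1 := rfl
  simp only [h0, h1, cycPoly5_0, cycPoly5_1]
  simp
  simp only [cycPoly5_0, cycPoly5_1]
  try ring

lemma logNum5_1 : logNum (fun i : Fin 2 => cycPoly i) 1 =
    1 + X := by
  have he : (Finset.univ.erase (1 : Fin 2)) = {0} := by decide
  rw [logNum, he]
  have h0 : ((0 : Fin 2) : ℕ) = 0 := rfl
  have h1 : ((1 : Fin 2) : ℕ) = 1 := rfl
  simp only [h0, h1, cycPoly5_0, cycPoly5_1]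
  simp
  simp only [cycPoly5_0, cycPoly5_1]
  try ring

theorem logDerivCert_five : LogDerivCert 5 (fun i : Fin 2 => cycPoly i) := by
  refine logDerivCert_of_coeff _ fun b hb => ?_
  have hb' : ∀ k < 3, (5 : ℤ) ∣ (b 0 : ℤ) * (logNum (fun i : Fin 2 => cycPoly i) 0).coeff k + (b 1 : ℤ) * (logNum (fun i : Fin 2 => cycPoly i) 1).coeff k := by
    intro k hk
    have := hb k hk
    rw [Fin.sum_univ_two] at this
    exact_mod_cast this
  rw [logNum5_0, logNum5_1] at hb'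
  obtain ⟨t0, ht0⟩ := hb' 0 (by norm_num)
  obtain ⟨t1, ht1⟩ := hb' 1 (by norm_num)
  obtain ⟨t2, ht2⟩ := hb' 2 (by norm_num)
  simp [coeff_X, coeff_X_pow, coeff_one] at ht0 ht1 ht2
  intro i
  fin_cases i
  · show 5 ∣ b 0
    have : (b 0 : ℤ) = 5 * (1 * t0 + 4 * t1 - 1 * (b 0 : ℤ) - 1 * (b 1 : ℤ)) := by linear_combination 1 * ht0 + 4 * ht1
    exact Int.natCast_dvd_natCast.mp ⟨_, this⟩
  · show 5 ∣ b 1
    have : (b 1 : ℤ) = 5 * (4 * t0 + 2 * t1 - 2 * (b 0 : ℤ) - 1 * (b 1 : ℤ)) := by linear_combination 4 * ht0 + 2 * ht1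
    exact Int.natCast_dvd_natCast.mp ⟨_, this⟩

end Fermat.Agent.Lib.Kummer

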