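import Mathlib
import Fermat.Agent.Lib.Kummer.CycUnits

set_option autoImplicit false
set_option linter.unusedSimpArgs false
set_option linter.unusedVariables false

open Polynomial NumberField

namespace Fermat.Agent.Lib.Kummer

lemma cycPoly7_0 : cycPoly 0 = 1 + X := by
  simp [cycPoly]; ring

lemma cycPoly7_1 : cycPoly 1 = 2 + X := by
  simp [cycPoly, Finset.sum_range_succ]; ring

lemma cycPoly7_2 : cycPoly 2 = 3 + 3 * X + X^2 := by
  simp [cycPoly, Finset.sum_range_succ]; ring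

lemma logNum7_0 : logNum (fun i : Fin 3 => cycPoly i) 0 =
    6 + 9 * X + 5 * X^2 + X^3 := by
  have he : (Finset.univ.erase (0 : Fin 3)) = {1, 2} := by decide
  rw [logNum, he]
  have h0 : ((0 : Fin 3) : ℕ) = 0 := rfl
  have h1 : ((1 : Fin 3) : ℕ) = 1 := rfl
  have h2 : ((2 : Fin 3) : ℕ) = 2 := rfl
  simp only [h0, h1, h2, cycPoly7_0, cycPoly7_1, cycPoly7_2]
  simp
  simp only [cycPoly7_0, cycPoly7_1, cycPoly7_2]
  try ring

lemma logNum7_1 : logNum (fun i : Fin 3 => cycPoly i) 1 =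
    3 + 6 * X + 4 * X^2 + X^3 := by
  have he : (Finset.univ.erase (1 : Fin 3)) = {0, 2} := by decide
  rw [logNum, he]
  have h0 : ((0 : Fin 3) : ℕ) = 0 := rfl
  have h1 : ((1 : Fin 3) : ℕ) = 1 := rfl
  have h2 : ((2 : Fin 3) : ℕ) = 2 := rfl
  simp only [h0, h1, h2, cycPoly7_0, cycPoly7_1, cycPoly7_2]
  simp
  simp only [cycPoly7_0, cycPoly7_1, cycPoly7_2]
  try ring

lemma logNum7_2 : logNum (fun i : Fin 3 => cycPoly i) 2 =
    6 + 13 * X + 9 * X^2 + 2 * X^3 := by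
  have he : (Finset.univ.erase (2 : Fin 3)) = {0, 1} := by decide
  rw [logNum, he]
  have h0 : ((0 : Fin 3) : ℕ) = 0 := rfl
  have h1 : ((1 : Fin 3) : ℕ) = 1 := rfl
  have h2 : ((2 : Fin 3) : ℕ) = 2 := rfl
  simp only [h0, h1, h2, cycPoly7_0, cycPoly7_1, cycPoly7_2]
  simp
  simp only [cycPoly7_0, cycPoly7_1, cycPoly7_2]
  try ring

theorem logDerivCert_seven : LogDerivCert 7 (fun i : Fin 3 => cycPoly i) := by
  refine logDerivCert_of_coeff _ fun b hb => ?_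
  have hb' : ∀ k < 5, (7 : ℤ) ∣ (b 0 : ℤ) * (logNum (fun i : Fin 3 => cycPoly i) 0).coeff k + (b 1 : ℤ) * (logNum (fun i : Fin 3 => cycPoly i) 1).coeff k + (b 2 : ℤ) * (logNum (fun i : Fin 3 => cycPoly i) 2).coeff k := by
    intro k hk
    have := hb k hk
    rw [Fin.sum_univ_three] at this
    exact_mod_cast this
  rw [logNum7_0, logNum7_1, logNum7_2] at hb'
  obtain ⟨t0, ht0⟩ := hb' 0 (by norm_num)
  obtain ⟨t1, ht1⟩ := hb' 1 (by norm_num)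
  obtain ⟨t2, ht2⟩ := hb' 2 (by norm_num)
  obtain ⟨t3, ht3⟩ := hb' 3 (by norm_num)
  obtain ⟨t4, ht4⟩ := hb' 4 (by norm_num)
  simp [coeff_X, coeff_X_pow, coeff_one] at ht0 ht1 ht2 ht3 ht4
  intro i
  fin_cases i
  · show 7 ∣ b 0
    have : (b 0 : ℤ) = 7 * (5 * t0 + 6 * t3 - 5 * (b 0 : ℤ) - 3 * (b 1 : ℤ) - 6 * (b 2 : ℤ)) := by linear_combination 5 * ht0 + 6 * ht3
    exact Int.natCast_dvd_natCast.mp ⟨_, this⟩
  · show 7 ∣ b 1
    have : (b 1 : ℤ) = 7 * (4 * t0 + 5 * t1 + 1 * t3 - 10 * (b 0 : ℤ) - 6 * (b 1 : ℤ) - 13 * (b 2 : ℤ)) := by linear_combination 4 * ht0 + 5 * ht1 + 1 * ht3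
    exact Int.natCast_dvd_natCast.mp ⟨_, this⟩
  · show 7 ∣ b 2
    have : (b 2 : ℤ) = 7 * (6 * t0 + 1 * t1 + 4 * t3 - 7 * (b 0 : ℤ) - 4 * (b 1 : ℤ) - 8 * (b 2 : ℤ)) := by linear_combination 6 * ht0 + 1 * ht1 + 4 * ht3
    exact Int.natCast_dvd_natCast.mp ⟨_, this⟩

end Fermat.Agent.Lib.Kummer

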