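import Mathlib

/-!
# Kummer's logarithmic-derivative congruence (piece K4.L1)

For the `p`-th cyclotomic field `K`, `π = ζ - 1`, `f ∈ ℤ[X]` and `a ∈ ℤ`:
if `p ∣ f(π) - a` in `𝓞 K` then `X ^ (p - 2)` divides the derivative of `f mod p`.
-/

set_option autoImplicit false

namespace Fermat.Agent.Lib.Kummer

open NumberField Polynomial

section general

variable {R S : Type*} [CommRing R] [CommRing S] [Algebra R S]

/-- Coordinates with respect to a power basis: if `n ∣ r(gen)` with `natDegree r < dim`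
then `n` divides every coefficient of `r`. -/
theorem dvd_coeff_of_dvd_aeval_gen (B : PowerBasis R S) (r : R[X]) (hr : r.natDegree < B.dim)
    (n : R) (h : algebraMap R S n ∣ aeval B.gen r) (i : ℕ) : n ∣ r.coeff i := by
  obtain ⟨y, hy⟩ := h
  by_cases hi : i < B.dim
  · have hsum : aeval B.gen r = ∑ j : Fin B.dim, r.coeff (j : ℕ) • B.basis j := by
      rw [aeval_eq_sum_range' hr, Finset.sum_range]
      simp [B.coe_basis]
    have hrepr : B.basis.repr (aeval B.gen r) ⟨i, hi⟩ = r.coeff i := by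
      rw [hsum, B.basis.repr_sum_self]
    have hrepr2 : B.basis.repr (aeval B.gen r) ⟨i, hi⟩ = n * B.basis.repr y ⟨i, hi⟩ := by
      rw [hy, ← Algebra.smul_def, map_smul]
      simp
    exact ⟨_, hrepr.symm.trans hrepr2⟩
  · rw [coeff_eq_zero_of_natDegree_lt (lt_of_lt_of_le hr (not_lt.mp hi))]
    exact dvd_zero n

end general

section cyclo

variable (p : ℕ) [hp : Fact p.Prime]

/-- The minimal polynomial `Φ_p(X + 1)` of `ζ - 1`. -/
noncomputable def cycloShift : ℤ[X] := (cyclotomic p ℤ).comp (X + 1)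

omit hp in
theorem cycloShift_monic : (cycloShift p).Monic := by
  unfold cycloShift
  have h1 : (cyclotomic p ℤ).Monic := cyclotomic.monic p ℤ
  have := h1.comp_X_add_C (1 : ℤ)
  simpa using this

theorem cycloShift_natDegree : (cycloShift p).natDegree = p - 1 := by
  unfold cycloShift
  have := natDegree_comp (p := cyclotomic p ℤ) (q := X + 1)
  rw [this, natDegree_cyclotomic, Nat.totient_prime hp.out]
  have : (X + 1 : ℤ[X]).natDegree = 1 := natDegree_X_add_C (1 : ℤ)
  rw [this, mul_one]

theorem cycloShift_mul_X : cycloShift p * X = (X + 1) ^ p - 1 := by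
  unfold cycloShift
  have h := cyclotomic_prime_mul_X_sub_one ℤ p
  have h2 := congrArg (fun q : ℤ[X] => q.comp (X + 1)) h
  simp only [mul_comp, sub_comp, X_comp, one_comp, pow_comp] at h2
  rw [← h2]
  congr 1
  ring

theorem cycloShift_map_zmod :
    (cycloShift p).map (Int.castRingHom (ZMod p)) = X ^ (p - 1) := by
  have h := congrArg (Polynomial.map (Int.castRingHom (ZMod p))) (cycloShift_mul_X p)
  simp only [Polynomial.map_mul, Polynomial.map_X, Polynomial.map_sub, Polynomial.map_pow,
    Polynomial.map_add, Polynomial.map_one] at h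
  rw [add_pow_char (X : (ZMod p)[X]) 1 p] at h
  simp only [one_pow, add_sub_cancel_right] at h
  have hp1 : p = (p - 1) + 1 := (Nat.sub_add_cancel hp.out.one_le).symm
  have h3 : (X : (ZMod p)[X]) ^ p = X ^ (p - 1) * X := by
    rw [← pow_succ, ← hp1]
  rw [h3] at h
  exact mul_right_cancel₀ X_ne_zero h

end cyclo

variable {K : Type*} [Field K] [NumberField K] {p : ℕ} [hp : Fact p.Prime]
  [IsCyclotomicExtension {p} ℚ K]

omit [IsCyclotomicExtension {p} ℚ K] in
theorem aeval_cycloShift {ζ : K} (hζ : IsPrimitiveRoot ζ p) :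
    aeval (hζ.toInteger - 1 : 𝓞 K) (cycloShift p) = 0 := by
  have hne : NeZero p := ⟨hp.out.ne_zero⟩
  unfold cycloShift
  rw [aeval_comp]
  simp only [map_add, aeval_X, map_one, sub_add_cancel]
  have h1 : IsPrimitiveRoot hζ.toInteger p := hζ.toInteger_isPrimitiveRoot
  have h2 := (isRoot_cyclotomic_iff (R := 𝓞 K) (n := p)).mpr h1
  rw [IsRoot.def, ← map_cyclotomic_int, eval_map] at h2
  rw [aeval_def, algebraMap_int_eq]
  exact h2

/-- **K4.L1.** If `p ∣ f(ζ - 1) - a` in `𝓞 K` then `X ^ (p - 2) ∣ (f mod p)'`. -/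
theorem X_pow_dvd_derivative_of_dvd_aeval_sub {ζ : K} (hζ : IsPrimitiveRoot ζ p)
    (f : ℤ[X]) (a : ℤ)
    (h : (p : 𝓞 K) ∣ aeval (hζ.toInteger - 1 : 𝓞 K) f - (a : 𝓞 K)) :
    (X : (ZMod p)[X]) ^ (p - 2) ∣ derivative (f.map (Int.castRingHom (ZMod p))) := by
  have hne : NeZero p := ⟨hp.out.ne_zero⟩
  set π : 𝓞 K := hζ.toInteger - 1 with hπ
  set m := cycloShift p with hm
  have hmon : m.Monic := cycloShift_monic p
  set g : ℤ[X] := f - C a with hg
  set r := g %ₘ m with hrdef
  set q := g /ₘ m with hqdef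
  have hdiv : r + m * q = g := modByMonic_add_div g m
  -- the power basis with generator π
  set B := hζ.subOneIntegralPowerBasis with hB
  have hBgen : B.gen = π := by
    rw [hB, IsPrimitiveRoot.subOneIntegralPowerBasis_gen]
    apply Subtype.ext
    show ζ - 1 = algebraMap (𝓞 K) K (hζ.toInteger - 1)
    rw [map_sub, map_one]
    rfl
  have hmπ : aeval π m = 0 := aeval_cycloShift hζ
  have hBdim : B.dim = p - 1 := by
    have h1 : B.dim = Module.finrank ℤ (𝓞 K) := B.finrank.symm
    have h2 : hζ.integralPowerBasis.dim = Module.finrank ℤ (𝓞 K) :=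
      hζ.integralPowerBasis.finrank.symm
    rw [h1, ← h2, IsPrimitiveRoot.integralPowerBasis_dim, Nat.totient_prime hp.out]
  have hp2 : 2 ≤ p := hp.out.two_le
  -- degree of the remainder
  have hrdeg : r.natDegree < B.dim := by
    rw [hBdim, ← cycloShift_natDegree p]
    by_cases hr0 : r = 0
    · rw [hr0, natDegree_zero, cycloShift_natDegree]; omega
    · have hm1 : m ≠ 1 := by
        intro h1
        have := cycloShift_natDegree p
        rw [← hm, h1, natDegree_one] at this
        omega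
      exact natDegree_modByMonic_lt g hmon hm1
  -- p divides r(π)
  have hrπ : aeval π r = aeval π f - (a : 𝓞 K) := by
    have h1 : aeval π g = aeval π r + aeval π m * aeval π q := by
      rw [← hdiv, map_add, map_mul]
    rw [hmπ, zero_mul, add_zero] at h1
    rw [← h1, hg, map_sub, aeval_C]
    simp
  have hdvd : algebraMap ℤ (𝓞 K) (p : ℤ) ∣ aeval B.gen r := by
    rw [hBgen, hrπ]
    simpa using h
  have hcoeff : ∀ i, (p : ℤ) ∣ r.coeff i := dvd_coeff_of_dvd_aeval_gen B r hrdeg (p : ℤ) hdvd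
  -- hence r ≡ 0 mod p
  have hrmap : r.map (Int.castRingHom (ZMod p)) = 0 := by
    ext i
    rw [coeff_map, coeff_zero]
    exact (ZMod.intCast_zmod_eq_zero_iff_dvd _ p).mpr (hcoeff i)
  -- f ≡ a + X^(p-1) q mod p
  have hfmap : f.map (Int.castRingHom (ZMod p)) =
      C ((a : ℤ) : ZMod p) + X ^ (p - 1) * q.map (Int.castRingHom (ZMod p)) := by
    have hf : f = C a + (r + m * q) := by rw [hdiv, hg]; ring
    conv_lhs => rw [hf]
    rw [Polynomial.map_add, Polynomial.map_add, Polynomial.map_mul, hrmap, zero_add,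
      Polynomial.map_C, hm, cycloShift_map_zmod]
    rfl
  rw [hfmap, derivative_add, derivative_C, zero_add, derivative_mul, derivative_X_pow]
  have hp12 : p - 1 - 1 = p - 2 := by omega
  rw [hp12]
  have hp1 : p - 1 = (p - 2) + 1 := by omega
  refine dvd_add ?_ ?_
  · exact Dvd.dvd.mul_right (Dvd.dvd.mul_left (dvd_refl _) _) _
  · rw [hp1, pow_succ, mul_assoc]
    exact Dvd.intro _ rfl

end Fermat.Agent.Lib.Kummer
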