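import Mathlib

/-!
# `p`-th powers in `ℤ[ζ_p]` are congruent to rational integers modulo `p`

Piece K4.F of the S10/S11 route: for a `p`-th cyclotomic field `K` (`p` prime) and `y : 𝓞 K`
there is `a : ℤ` with `p ∣ y ^ p - a`.
-/

set_option autoImplicit false

namespace Fermat.Agent.Lib.Kummer.Frobenius

open NumberField

section general

variable {R : Type*} [CommRing R] (p : ℕ) [hp : Fact p.Prime]

/-- The set of elements of a commutative ring whose `p`-th power is congruent to a rational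
integer modulo `p`, as a `ℤ`-subalgebra. -/
def powCongrInt : Subalgebra ℤ R where
  carrier := {y | ∃ a : ℤ, (p : R) ∣ y ^ p - (a : R)}
  mul_mem' := by
    rintro y z ⟨a, ha⟩ ⟨b, hb⟩
    refine ⟨a * b, ?_⟩
    have : (y * z) ^ p - ((a * b : ℤ) : R) =
        (y ^ p - a) * z ^ p + a * (z ^ p - b) := by
      push_cast; ring
    rw [this]
    exact dvd_add (Dvd.dvd.mul_right ha _) (Dvd.dvd.mul_left hb _)
  add_mem' := by
    rintro y z ⟨a, ha⟩ ⟨b, hb⟩
    refine ⟨a + b, ?_⟩
    obtain ⟨r, hr⟩ := exists_add_pow_prime_eq hp.out y z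
    have : (y + z) ^ p - ((a + b : ℤ) : R) =
        (y ^ p - a) + (z ^ p - b) + (p : R) * (y * z * r) := by
      rw [hr]; push_cast; ring
    rw [this]
    exact dvd_add (dvd_add ha hb) (Dvd.intro _ rfl)
  algebraMap_mem' := by
    intro n
    refine ⟨n ^ p, ?_⟩
    simp

theorem mem_powCongrInt {y : R} :
    y ∈ powCongrInt (R := R) p ↔ ∃ a : ℤ, (p : R) ∣ y ^ p - (a : R) := Iff.rfl

end general

variable {K : Type*} [Field K] [NumberField K] {p : ℕ} [hp : Fact p.Prime]
  [IsCyclotomicExtension {p} ℚ K]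

/-- **Frobenius congruence.** In the ring of integers of the `p`-th cyclotomic field, every
`p`-th power is congruent to a rational integer modulo `p`. -/
theorem exists_int_dvd_pow_sub (y : 𝓞 K) : ∃ a : ℤ, (p : 𝓞 K) ∣ y ^ p - (a : 𝓞 K) := by
  have : NeZero p := ⟨hp.out.ne_zero⟩
  have hζ := IsCyclotomicExtension.zeta_spec p ℚ K
  have htop : Algebra.adjoin ℤ ({hζ.integralPowerBasis.gen} : Set (𝓞 K)) = ⊤ :=
    hζ.integralPowerBasis.adjoin_gen_eq_top
  have hgen : hζ.integralPowerBasis.gen ∈ powCongrInt (R := 𝓞 K) p := by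
    refine ⟨1, ?_⟩
    rw [IsPrimitiveRoot.integralPowerBasis_gen]
    have h1 : hζ.toInteger ^ p = 1 := by
      have := hζ.toInteger_isPrimitiveRoot.pow_eq_one
      exact this
    rw [h1]
    simp
  have hle : Algebra.adjoin ℤ ({hζ.integralPowerBasis.gen} : Set (𝓞 K)) ≤
      powCongrInt (R := 𝓞 K) p :=
    Algebra.adjoin_le (Set.singleton_subset_iff.mpr hgen)
  rw [htop] at hle
  exact hle (Algebra.mem_top)

end Fermat.Agent.Lib.Kummer.Frobenius
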