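import Mathlib
import Fermat.Agent.Lib.Kummer.Cert5
import Fermat.Agent.Lib.Kummer.Cert7
import Fermat.Agent.Lib.Kummer.Cert11
import Fermat.Agent.Lib.Kummer.Cert13

set_option autoImplicit false

open NumberField

namespace Fermat.Agent.Lib.Kummer

/-- **Kummer's lemma for `p = 5`**: a unit of `ℤ[ζ₅]` congruent to a rational integer modulo `5`
is a `5`-th power. -/
theorem kummer_lemma_five {K : Type*} [Field K] [NumberField K]
    [IsCyclotomicExtension {5} ℚ K] (u : (𝓞 K)ˣ)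
    (h : ∃ n : ℤ, ((5 : ℕ) : 𝓞 K) ∣ (u : 𝓞 K) - n) : ∃ v : (𝓞 K)ˣ, u = v ^ 5 := by
  have : Fact (Nat.Prime 5) := ⟨by norm_num⟩
  exact kummer_lemma_of_cycCert (IsCyclotomicExtension.zeta_spec 5 ℚ K) (by norm_num)
    logDerivCert_five u h

/-- **Kummer's lemma for `p = 7`**. -/
theorem kummer_lemma_seven {K : Type*} [Field K] [NumberField K]
    [IsCyclotomicExtension {7} ℚ K] (u : (𝓞 K)ˣ)
    (h : ∃ n : ℤ, ((7 : ℕ) : 𝓞 K) ∣ (u : 𝓞 K) - n) : ∃ v : (𝓞 K)ˣ, u = v ^ 7 := by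
  have : Fact (Nat.Prime 7) := ⟨by norm_num⟩
  exact kummer_lemma_of_cycCert (IsCyclotomicExtension.zeta_spec 7 ℚ K) (by norm_num)
    logDerivCert_seven u h

/-- **Kummer's lemma for `p = 11`**. -/
theorem kummer_lemma_eleven {K : Type*} [Field K] [NumberField K]
    [IsCyclotomicExtension {11} ℚ K] (u : (𝓞 K)ˣ)
    (h : ∃ n : ℤ, ((11 : ℕ) : 𝓞 K) ∣ (u : 𝓞 K) - n) : ∃ v : (𝓞 K)ˣ, u = v ^ 11 := by
  have : Fact (Nat.Prime 11) := ⟨by norm_num⟩
  exact kummer_lemma_of_cycCert (IsCyclotomicExtension.zeta_spec 11 ℚ K) (by norm_num)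
    logDerivCert_eleven u h

/-- **Kummer's lemma for `p = 13`**. -/
theorem kummer_lemma_thirteen {K : Type*} [Field K] [NumberField K]
    [IsCyclotomicExtension {13} ℚ K] (u : (𝓞 K)ˣ)
    (h : ∃ n : ℤ, ((13 : ℕ) : 𝓞 K) ∣ (u : 𝓞 K) - n) : ∃ v : (𝓞 K)ˣ, u = v ^ 13 := by
  have : Fact (Nat.Prime 13) := ⟨by norm_num⟩
  exact kummer_lemma_of_cycCert (IsCyclotomicExtension.zeta_spec 13 ℚ K) (by norm_num)
    logDerivCert_thirteen u h

end Fermat.Agent.Lib.Kummer
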